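/-
S51 toolkit: counting torsion points whose x-coordinates are roots of a polynomial.
-/
import Mathlib

set_option autoImplicit false

namespace Fermat.Agent.S51

open WeierstrassCurve WeierstrassCurve.Affine Polynomial

variable {K : Type*} [Field K] [DecidableEq K] {W : WeierstrassCurve.Affine K}

/-- points with a given x-coordinate -/
def fibreX (W : WeierstrassCurve.Affine K) (x : K) : Set W.Point :=
  {P | ∃ (y : K) (h : W.Nonsingular x y), P = Point.some x y h}

theorem fibreX_finite_ncard_le (x : K) : (fibreX W x).Finite ∧ (fibreX W x).ncard ≤ 2 := by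
  by_cases hne : (fibreX W x).Nonempty
  · obtain ⟨P₀, y₀, h₀, rfl⟩ := hne
    have hsub : fibreX W x ⊆ {Point.some x y₀ h₀, -Point.some x y₀ h₀} := by
      rintro P ⟨y, h, rfl⟩
      rcases (Point.X_eq_iff (h₁ := h) (h₂ := h₀)).1 rfl with h | h
      · left; exact h
      · right; exact h
    have hfin : ({Point.some x y₀ h₀, -Point.some x y₀ h₀} : Set W.Point).Finite := by
      toFinite_tac
    refine ⟨hfin.subset hsub, (Set.ncard_le_ncard hsub hfin).trans ?_⟩
    refine (Set.ncard_insert_le _ _).trans ?_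
    rw [Set.ncard_singleton]
  · rw [Set.not_nonempty_iff_eq_empty] at hne
    rw [hne]; simp

/-- If the x-coordinates of all nonzero points of a set `T` are roots of a nonzero polynomial of
degree `≤ d` then `T` is finite with at most `2d+1` elements. -/
theorem finite_ncard_le_of_roots (T : Set W.Point) (p : K[X]) (hp : p ≠ 0) (d : ℕ)
    (hd : p.natDegree ≤ d)
    (hroot : ∀ (x y : K) (h : W.Nonsingular x y), Point.some x y h ∈ T → p.eval x = 0) :
    T.Finite ∧ T.ncard ≤ 2 * d + 1 := by
  classical
  set S := p.roots.toFinset with hS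
  have hScard : S.card ≤ d := (Multiset.toFinset_card_le _).trans ((card_roots' p).trans hd)
  have hsub : T ⊆ {0} ∪ ⋃ x ∈ S, fibreX W x := by
    intro P hP
    rcases P with _ | ⟨x, y, h⟩
    · left; rfl
    · right
      simp only [Set.mem_iUnion]
      refine ⟨x, ?_, y, h, rfl⟩
      rw [hS, Multiset.mem_toFinset, mem_roots hp]
      exact hroot x y h hP
  have hfinU : (⋃ x ∈ S, fibreX W x).Finite :=
    Set.Finite.biUnion S.finite_toSet fun x _ => (fibreX_finite_ncard_le x).1
  have hfin : ({0} ∪ ⋃ x ∈ S, fibreX W x).Finite := (Set.finite_singleton _).union hfinU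
  refine ⟨hfin.subset hsub, (Set.ncard_le_ncard hsub hfin).trans ?_⟩
  refine (Set.ncard_union_le _ _).trans ?_
  rw [Set.ncard_singleton]
  have h1 : (⋃ x ∈ S, fibreX W x).ncard ≤ ∑ x ∈ S, (fibreX W x).ncard :=
    Finset.set_ncard_biUnion_le S _
  have h2 : ∑ x ∈ S, (fibreX W x).ncard ≤ ∑ _x ∈ S, 2 :=
    Finset.sum_le_sum fun x _ => (fibreX_finite_ncard_le x).2
  simp only [Finset.sum_const, smul_eq_mul] at h2
  nlinarith

/-- Version for the `n`-torsion submodule. -/
theorem finite_card_torsionBy_le (n : ℕ) (p : K[X]) (hp : p ≠ 0) (d : ℕ) (hd : p.natDegree ≤ d)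
    (hroot : ∀ (x y : K) (h : W.Nonsingular x y), n • Point.some x y h = 0 → p.eval x = 0) :
    Finite (Submodule.torsionBy ℤ W.Point (n : ℤ)) ∧
      Nat.card (Submodule.torsionBy ℤ W.Point (n : ℤ)) ≤ 2 * d + 1 := by
  have := finite_ncard_le_of_roots (W := W) (Submodule.torsionBy ℤ W.Point (n : ℤ) : Set W.Point)
    p hp d hd (fun x y h hm => hroot x y h (by
      have := (Submodule.mem_torsionBy_iff _ _).1 hm
      simpa using this))
  exact ⟨this.1, this.2⟩

end Fermat.Agent.S51
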