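/-
S51 toolkit: the duplication formula on x-coordinates for Mathlib's affine points.
-/
import Mathlib

set_option autoImplicit false

namespace Fermat.Agent.S51

open WeierstrassCurve WeierstrassCurve.Affine

variable {K : Type*} [Field K] (W : WeierstrassCurve.Affine K)

/-- `f(x) = 4x³ + b₂x² + 2b₄x + b₆ = (2y + a₁x + a₃)²`. -/
def fX (x : K) : K := 4 * x ^ 3 + W.b₂ * x ^ 2 + 2 * W.b₄ * x + W.b₆

/-- `ψ₃(x) = 3x⁴ + b₂x³ + 3b₄x² + 3b₆x + b₈`. -/
def psi3X (x : K) : K := 3 * x ^ 4 + W.b₂ * x ^ 3 + 3 * W.b₄ * x ^ 2 + 3 * W.b₆ * x + W.b₈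

/-- shifted invariants -/
def B2 (x : K) : K := W.b₂ + 12 * x
def B4 (x : K) : K := W.b₄ + x * W.b₂ + 6 * x ^ 2

variable {W}

theorem fX_eq_sq {x y : K} (h : W.Equation x y) : fX W x = (y - W.negY x y) ^ 2 := by
  rw [equation_iff] at h
  simp only [fX, negY, WeierstrassCurve.b₂, WeierstrassCurve.b₄, WeierstrassCurve.b₆]
  linear_combination (-4) * h

theorem fX_eq_zero_iff {x y : K} (h : W.Equation x y) : fX W x = 0 ↔ y = W.negY x y := by
  rw [fX_eq_sq h, sq_eq_zero_iff, sub_eq_zero]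

/-- Taylor expansions. -/
theorem fX_add (x d : K) :
    fX W (x + d) = 4 * d ^ 3 + B2 W x * d ^ 2 + 2 * B4 W x * d + fX W x := by
  simp only [fX, B2, B4]; ring

theorem psi3X_add (x d : K) :
    psi3X W (x + d) = 3 * d ^ 4 + B2 W x * d ^ 3 + 3 * B4 W x * d ^ 2 + 3 * fX W x * d
      + psi3X W x := by
  simp only [fX, B2, B4, psi3X]; ring

/-- the `b`-relation for the shifted invariants. -/
theorem four_psi3X (x : K) : 4 * psi3X W x = B2 W x * fX W x - B4 W x ^ 2 := by
  have := W.b_relation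
  simp only [fX, B2, B4, psi3X]
  linear_combination this

/-- the discriminant in terms of the shifted invariants. -/
theorem Δ_eq_shift (x : K) : W.Δ = -B2 W x ^ 2 * psi3X W x - 8 * B4 W x ^ 3 - 27 * fX W x ^ 2
    + 9 * B2 W x * B4 W x * fX W x := by
  simp only [fX, B2, B4, psi3X, WeierstrassCurve.Δ, WeierstrassCurve.b₂, WeierstrassCurve.b₄,
    WeierstrassCurve.b₆, WeierstrassCurve.b₈]
  ring

variable [DecidableEq K]

theorem add_self_eq_zero_iff {x y : K} (h : W.Nonsingular x y) :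
    Point.some x y h + Point.some x y h = 0 ↔ fX W x = 0 := by
  rw [fX_eq_zero_iff h.1]
  constructor
  · intro h0
    by_contra hy
    rw [Point.add_self_of_Y_ne hy] at h0
    exact Point.some_ne_zero _ h0
  · intro hy
    exact Point.add_self_of_Y_eq hy

/-- Duplication formula. -/
theorem dup_x {x y x' y' : K} (h : W.Nonsingular x y) (h' : W.Nonsingular x' y')
    (hd : Point.some x y h + Point.some x y h = Point.some x' y' h') :
    fX W x ≠ 0 ∧ (x' - x) * fX W x = - psi3X W x := by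
  have hf : fX W x ≠ 0 := by
    intro h0
    rw [(add_self_eq_zero_iff h).2 h0] at hd
    exact Point.some_ne_zero _ hd.symm
  refine ⟨hf, ?_⟩
  have hy : y ≠ W.negY x y := fun e => hf ((fX_eq_zero_iff h.1).2 e)
  rw [Point.add_self_of_Y_ne hy] at hd
  injection hd with hx _
  rw [← hx, fX_eq_sq h.1, slope_of_Y_ne rfl hy, addX]
  have hD : y - W.negY x y ≠ 0 := sub_ne_zero.2 hy
  have he := (equation_iff _ _).1 h.1
  field_simp
  simp only [psi3X, negY, WeierstrassCurve.b₂, WeierstrassCurve.b₄, WeierstrassCurve.b₆,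
    WeierstrassCurve.b₈]
  linear_combination (-(W.a₁ ^ 2 + 4 * W.a₂ + 12 * x)) * he

end Fermat.Agent.S51
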