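/-
S51 (T5): 5-torsion points via the duplication formula.
-/
import Mathlib
import Fermat.Agent.S51.Dup
import Fermat.Agent.S51.Count

set_option autoImplicit false

namespace Fermat.Agent.S51

open WeierstrassCurve WeierstrassCurve.Affine Polynomial

variable {K : Type*} [Field K] (W : WeierstrassCurve.Affine K)

/-- `-ψ₅(x) = ψ₃³ - B₄ f² ψ₃ + f⁴`. -/
def psi5X (x : K) : K :=
  psi3X W x ^ 3 - B4 W x * fX W x ^ 2 * psi3X W x + fX W x ^ 4

variable {W}

/-- Pure algebra: the two duplication relations imply the three `B`-relations. -/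
theorem five_alg {x₁ x₂ : K} (hne : x₂ ≠ x₁)
    (h1 : (x₂ - x₁) * fX W x₁ = - psi3X W x₁) (h2 : (x₁ - x₂) * fX W x₂ = - psi3X W x₂) :
    (x₂ - x₁) ^ 3 = B4 W x₁ * (x₂ - x₁) + fX W x₁ := by
  obtain ⟨d, rfl⟩ : ∃ d, x₂ = x₁ + d := ⟨x₂ - x₁, by ring⟩
  have hd : d ≠ 0 := by
    intro h; apply hne; rw [h, add_zero]
  rw [fX_add, psi3X_add] at h2
  have e1 : x₁ + d - x₁ = d := by ring
  have e2 : x₁ - (x₁ + d) = -d := by ring
  rw [e1] at h1 ⊢
  rw [e2] at h2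
  apply mul_left_cancel₀ hd
  linear_combination (-1) * h2 + h1

theorem psi5X_eq_zero_of_rel {x₁ x₂ : K} (hne : x₂ ≠ x₁)
    (h1 : (x₂ - x₁) * fX W x₁ = - psi3X W x₁) (h2 : (x₁ - x₂) * fX W x₂ = - psi3X W x₂) :
    psi5X W x₁ = 0 := by
  have h3 := five_alg hne h1 h2
  generalize x₂ - x₁ = d at h1 h3
  have h8 : psi3X W x₁ = - (d * fX W x₁) := by rw [h1]; ring
  simp only [psi5X]
  rw [h8]
  linear_combination (- fX W x₁ ^ 3) * h3

variable [DecidableEq K]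

/-- The relations satisfied by a point of order 5. -/
theorem five_torsion_rel {x₁ y₁ : K} (h₁ : W.Nonsingular x₁ y₁)
    (h5 : (5 : ℕ) • Point.some x₁ y₁ h₁ = 0) :
    ∃ (x₂ y₂ : K) (h₂ : W.Nonsingular x₂ y₂),
      Point.some x₁ y₁ h₁ + Point.some x₁ y₁ h₁ = Point.some x₂ y₂ h₂ ∧ x₂ ≠ x₁ ∧
      fX W x₁ ≠ 0 ∧ fX W x₂ ≠ 0 ∧
      (x₂ - x₁) * fX W x₁ = - psi3X W x₁ ∧ (x₁ - x₂) * fX W x₂ = - psi3X W x₂ := by
  set P := Point.some x₁ y₁ h₁ with hP
  have hP0 : P ≠ 0 := Point.some_ne_zero _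
  have h5' : P + P + (P + P) = -P := by
    have : (5 : ℕ) • P = P + P + (P + P) + P := by
      simp only [show (5 : ℕ) = 1 + 1 + 1 + 1 + 1 from rfl, add_smul, one_smul]; abel
    rw [this] at h5
    exact eq_neg_of_add_eq_zero_left h5
  rcases hQ : P + P with _ | ⟨x₂, y₂, h₂⟩
  · exfalso
    rw [hQ] at h5'
    have : (0 : W.Point) = -P := by
      rw [← h5']; exact (add_zero (0 : W.Point)).symm
    exact hP0 (neg_eq_zero.1 this.symm)
  · refine ⟨x₂, y₂, h₂, rfl, ?_, ?_⟩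
    · intro hx
      have := (Point.X_eq_iff (h₁ := h₂) (h₂ := h₁)).1 hx
      rw [← hQ, ← hP] at this
      rcases this with h | h
      · simp at h
      · -- 3P = 0 and 5P = 0
        rw [h] at h5'
        have h' : -P + -P = -P := h5'
        simp at h'
    · obtain ⟨hf1, hr1⟩ := dup_x h₁ h₂ hQ
      rw [hQ, hP, Point.neg_some] at h5'
      obtain ⟨hf2, hr2⟩ := dup_x h₂ _ h5'
      exact ⟨hf1, hf2, hr1, hr2⟩

theorem psi5X_eq_zero_of_five_torsion {x₁ y₁ : K} (h₁ : W.Nonsingular x₁ y₁)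
    (h5 : (5 : ℕ) • Point.some x₁ y₁ h₁ = 0) : psi5X W x₁ = 0 := by
  obtain ⟨x₂, y₂, h₂, -, hne, -, -, hr1, hr2⟩ := five_torsion_rel h₁ h5
  exact psi5X_eq_zero_of_rel hne hr1 hr2

/-- `-ψ₅` as a polynomial. -/
noncomputable def psi5P (W : WeierstrassCurve.Affine K) : K[X] :=
  (C 3 * X ^ 4 + C W.b₂ * X ^ 3 + C (3 * W.b₄) * X ^ 2 + C (3 * W.b₆) * X + C W.b₈) ^ 3
    - (C 6 * X ^ 2 + C W.b₂ * X + C W.b₄)
      * (C 4 * X ^ 3 + C W.b₂ * X ^ 2 + C (2 * W.b₄) * X + C W.b₆) ^ 2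
      * (C 3 * X ^ 4 + C W.b₂ * X ^ 3 + C (3 * W.b₄) * X ^ 2 + C (3 * W.b₆) * X + C W.b₈)
    + (C 4 * X ^ 3 + C W.b₂ * X ^ 2 + C (2 * W.b₄) * X + C W.b₆) ^ 4

omit [DecidableEq K] in
theorem psi5P_eval (x : K) : (psi5P W).eval x = psi5X W x := by
  simp only [psi5P, psi5X, psi3X, fX, B4, eval_add, eval_sub, eval_mul, eval_pow, eval_C, eval_X]
  ring

omit [DecidableEq K] in
theorem psi5P_coeff : (psi5P W).coeff 12 = -5 := by
  unfold psi5P
  compute_degree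
  all_goals norm_num

omit [DecidableEq K] in
theorem psi5P_natDegree_le : (psi5P W).natDegree ≤ 12 := by
  unfold psi5P
  compute_degree

omit [DecidableEq K] in
theorem psi5P_ne_zero (h5 : (5 : K) ≠ 0) : psi5P W ≠ 0 := by
  intro h
  have := psi5P_coeff (W := W)
  rw [h, coeff_zero] at this
  exact h5 (by linear_combination this)

omit [DecidableEq K] in
theorem psi5P_natDegree (h5 : (5 : K) ≠ 0) : (psi5P W).natDegree = 12 := by
  refine le_antisymm psi5P_natDegree_le (le_natDegree_of_ne_zero ?_)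
  rw [psi5P_coeff]
  exact neg_ne_zero.2 h5

/-- `|E[5]| ≤ 25`. -/
theorem finite_card_five_torsion_le (h5 : (5 : K) ≠ 0) :
    Finite (Submodule.torsionBy ℤ W.Point ((5 : ℕ) : ℤ)) ∧
      Nat.card (Submodule.torsionBy ℤ W.Point ((5 : ℕ) : ℤ)) ≤ 25 :=
  finite_card_torsionBy_le 5 (psi5P W) (psi5P_ne_zero h5) 12 psi5P_natDegree_le
    (fun x y h h0 => by rw [psi5P_eval]; exact psi5X_eq_zero_of_five_torsion h h0)

omit [DecidableEq K] in
/-- On an algebraically closed field every `x` is the x-coordinate of a point. -/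
theorem exists_equation [IsAlgClosed K] (x : K) : ∃ y, W.Equation x y := by
  have hdeg : (X ^ 2 + C (W.a₁ * x + W.a₃) * X
      - C (x ^ 3 + W.a₂ * x ^ 2 + W.a₄ * x + W.a₆) : K[X]).degree ≠ 0 := by
    have : (X ^ 2 + C (W.a₁ * x + W.a₃) * X
      - C (x ^ 3 + W.a₂ * x ^ 2 + W.a₄ * x + W.a₆) : K[X]).degree = 2 := by
      compute_degree!
    rw [this]; norm_num
  obtain ⟨y, hy⟩ := IsAlgClosed.exists_root _ hdeg
  refine ⟨y, ?_⟩
  rw [equation_iff]
  simp only [IsRoot.def, eval_add, eval_sub, eval_mul, eval_pow, eval_C, eval_X] at hy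
  linear_combination hy

/-- A root of `ψ₅` gives a point of order 5. -/
theorem five_torsion_of_psi5X_eq_zero (hΔ : W.Δ ≠ 0) {x₁ y₁ : K} (h₁ : W.Nonsingular x₁ y₁)
    (h0 : psi5X W x₁ = 0) : (5 : ℕ) • Point.some x₁ y₁ h₁ = 0 := by
  have hrel := four_psi3X (W := W) x₁
  have hB6 : fX W x₁ ≠ 0 := by
    intro hB6
    have hB8 : psi3X W x₁ = 0 := by
      simp only [psi5X, hB6] at h0
      have : psi3X W x₁ ^ 3 = 0 := by linear_combination h0
      exact pow_eq_zero_iff (by norm_num) |>.1 this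
    have hB4 : B4 W x₁ = 0 := by
      rw [hB6, hB8] at hrel
      have : B4 W x₁ ^ 2 = 0 := by linear_combination hrel
      exact pow_eq_zero_iff (by norm_num) |>.1 this
    apply hΔ
    rw [Δ_eq_shift x₁, hB6, hB8, hB4]; ring
  set P := Point.some x₁ y₁ h₁ with hP
  have hP0 : P ≠ 0 := Point.some_ne_zero _
  rcases hQ : P + P with _ | ⟨x₂, y₂, h₂⟩
  · exact absurd ((add_self_eq_zero_iff h₁).1 hQ) hB6
  obtain ⟨-, hr1⟩ := dup_x h₁ h₂ hQ
  obtain ⟨d, rfl⟩ : ∃ d, x₂ = x₁ + d := ⟨x₂ - x₁, by ring⟩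
  have e1 : x₁ + d - x₁ = d := by ring
  rw [e1] at hr1
  have hB8 : psi3X W x₁ = -(d * fX W x₁) := by rw [hr1]; ring
  have hd : d ≠ 0 := by
    rintro rfl
    simp only [psi5X, hB8] at h0
    have : fX W x₁ ^ 4 = 0 := by linear_combination h0
    exact hB6 (pow_eq_zero_iff (by norm_num) |>.1 this)
  have h3 : d ^ 3 = B4 W x₁ * d + fX W x₁ := by
    simp only [psi5X, hB8] at h0
    have : fX W x₁ ^ 3 * (d ^ 3 - (B4 W x₁ * d + fX W x₁)) = 0 := by linear_combination -h0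
    rcases mul_eq_zero.1 this with h | h
    · exact absurd (pow_eq_zero_iff (by norm_num) |>.1 h) hB6
    · exact sub_eq_zero.1 h
  have hf2 : fX W (x₁ + d) * fX W x₁ = d ^ 6 := by
    rw [fX_add]
    rw [hB8] at hrel
    have : d ^ 6 = (B4 W x₁ * d + fX W x₁) ^ 2 := by rw [← h3]; ring
    rw [this]
    linear_combination (-d ^ 2) * hrel
  have hf2' : fX W (x₁ + d) ≠ 0 := by
    intro h
    rw [h, zero_mul] at hf2
    exact hd (pow_eq_zero_iff (by norm_num) |>.1 hf2.symm)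
  rcases hR : Point.some (x₁ + d) y₂ h₂ + Point.some (x₁ + d) y₂ h₂ with _ | ⟨x₄, y₄, h₄⟩
  · exact absurd ((add_self_eq_zero_iff h₂).1 hR) hf2'
  obtain ⟨-, hr2⟩ := dup_x h₂ h₄ hR
  have hx4 : x₄ = x₁ := by
    rw [psi3X_add, hB8] at hr2
    have : (x₄ - x₁) * fX W (x₁ + d) = 0 := by
      have e : (x₄ - x₁) * fX W (x₁ + d) = (x₄ - (x₁ + d)) * fX W (x₁ + d)
          + d * fX W (x₁ + d) := by ring
      rw [e, hr2, fX_add]
      linear_combination d * h3
    rcases mul_eq_zero.1 this with h | h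
    · exact sub_eq_zero.1 h
    · exact absurd h hf2'
  have h4 : P + P + (P + P) = P ∨ P + P + (P + P) = -P := by
    rw [hQ, hR, hP]
    exact (Point.X_eq_iff (h₁ := h₄) (h₂ := h₁)).1 hx4
  have h5 : (5 : ℕ) • P = P + P + (P + P) + P := by
    simp only [show (5 : ℕ) = 1 + 1 + 1 + 1 + 1 from rfl, add_smul, one_smul]; abel
  rcases h4 with h4 | h4
  · exfalso
    -- 3P = 0 so 2P = -P
    have h2 : P + P = -P := by
      have : P + P + P = 0 := by
        have h' : P + P + (P + P) - P = 0 := by rw [h4]; abel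
        rw [← h']; abel
      exact eq_neg_of_add_eq_zero_left this
    rw [hQ, hP] at h2
    have := (Point.X_eq_iff (h₁ := h₂) (h₂ := h₁)).2 (Or.inr h2)
    exact hd (by linear_combination this)
  · rw [h5, h4]; abel

/-- `E[5]` is nontrivial over an algebraically closed field of characteristic `≠ 5`. -/
theorem nontrivial_five_torsion [IsAlgClosed K] (hΔ : W.Δ ≠ 0) (h5 : (5 : K) ≠ 0) :
    Nontrivial (Submodule.torsionBy ℤ W.Point ((5 : ℕ) : ℤ)) := by
  have hdeg : (psi5P W).degree ≠ 0 := by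
    rw [degree_eq_natDegree (psi5P_ne_zero h5), psi5P_natDegree h5]; norm_num
  obtain ⟨x₁, hx₁⟩ := IsAlgClosed.exists_root _ hdeg
  rw [IsRoot.def, psi5P_eval] at hx₁
  obtain ⟨y₁, hy₁⟩ := exists_equation (W := W) x₁
  have h₁ : W.Nonsingular x₁ y₁ := (equation_iff_nonsingular_of_Δ_ne_zero hΔ).1 hy₁
  have ht := five_torsion_of_psi5X_eq_zero hΔ h₁ hx₁
  refine ⟨⟨⟨Point.some x₁ y₁ h₁, ?_⟩, 0, ?_⟩⟩
  · rw [Submodule.mem_torsionBy_iff, natCast_zsmul]
    exact ht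
  · intro h
    exact Point.some_ne_zero h₁ (congrArg Subtype.val h)

end Fermat.Agent.S51
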