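import Mathlib
import Fermat.Prelude.Def_FLTPrelim_GaloisRep
import Fermat.Agent.Lib.FrobeniusExists

/-!
# S51 (G): the Galois part

* a proper nonzero submodule of a `ZMod p`-module with at most `p²` elements is a line;
* Galois-fixed elements of `ℚ̄` are rational;
* the `x`-coordinate function on points and its behaviour under negation and Galois.
-/

set_option autoImplicit false
open WeierstrassCurve WeierstrassCurve.Affine WeierstrassCurve.Affine.Point

namespace Fermat.Agent.S51

/-- A proper nonzero subspace of an `𝔽_p`-vector space with at most `p²` elements is a line. -/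
theorem exists_nsmul_of_mem_line {p : ℕ} [Fact p.Prime] {M : Type*} [AddCommGroup M]
    [Module (ZMod p) M] [Finite M] (hcard : Nat.card M ≤ p ^ 2) (N : Submodule (ZMod p) M)
    (h0 : N ≠ ⊥) (h1 : N ≠ ⊤) {v : M} (hv : v ∈ N) (hv0 : v ≠ 0) :
    ∀ w ∈ N, ∃ k : ℕ, w = k • v := by
  have hp : p.Prime := Fact.out
  have hM : Module.finrank (ZMod p) M ≤ 2 := by
    have h := Module.natCard_eq_pow_finrank (K := ZMod p) (V := M)
    rw [Nat.card_zmod] at h
    rw [h] at hcard
    exact (Nat.pow_le_pow_iff_right hp.one_lt).1 hcard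
  have hlt : Module.finrank (ZMod p) N < Module.finrank (ZMod p) M :=
    Submodule.finrank_lt h1
  have hpos : 0 < Module.finrank (ZMod p) N := by
    rw [Module.finrank_pos_iff]
    exact (Submodule.nontrivial_iff_ne_bot).2 h0
  have hone : Module.finrank (ZMod p) N = 1 := by omega
  intro w hw
  have hv' : (⟨v, hv⟩ : N) ≠ 0 := fun h => hv0 (congrArg Subtype.val h)
  obtain ⟨c, hc⟩ := (finrank_eq_one_iff_of_nonzero' (⟨v, hv⟩ : N) hv').1 hone ⟨w, hw⟩
  refine ⟨c.val, ?_⟩
  have hc' : c • v = w := congrArg Subtype.val hc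
  rw [← hc', ← Nat.cast_smul_eq_nsmul (ZMod p), ZMod.natCast_val, ZMod.cast_id', id]

/-- Galois-fixed elements of `ℚ̄` are rational. -/
theorem exists_rat_of_fixed (x : AlgebraicClosure ℚ)
    (hx : ∀ σ : AlgebraicClosure ℚ ≃ₐ[ℚ] AlgebraicClosure ℚ, σ x = x) :
    ∃ r : ℚ, algebraMap ℚ (AlgebraicClosure ℚ) r = x := by
  have := Fermat.Agent.Lib.FrobeniusExists.isGalois_algebraicClosure_rat
  exact (InfiniteGalois.mem_range_algebraMap_iff_fixed x).2 hx

section XCoord

variable {F : Type*} [Field F] {V : Affine F}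

/-- The `x`-coordinate of a point (junk value `0` at the origin). -/
def xc : V.Point → F
  | .zero => 0
  | .some x _ _ => x

@[simp] theorem xc_some {x y : F} (h : V.Nonsingular x y) : xc (Point.some x y h) = x := rfl

@[simp] theorem xc_neg (P : V.Point) : xc (-P) = xc P := by
  cases P <;> rfl

end XCoord

section Gal

variable (E : WeierstrassCurve ℚ)

theorem xc_smul (σ : AlgebraicClosure ℚ ≃ₐ[ℚ] AlgebraicClosure ℚ)
    (P : (E⁄(AlgebraicClosure ℚ)).Point) : xc (σ • P) = σ (xc P) := by
  cases P with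
  | zero => exact (map_zero σ).symm
  | some x y h => rfl

end Gal

end Fermat.Agent.S51
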