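import Mathlib.Tactic.Ring
import Mathlib.Tactic.FieldSimp
import Mathlib.Tactic.LinearCombination
import Mathlib.Algebra.Field.Basic

set_option autoImplicit false

namespace Fermat.Agent.S51

variable {K : Type*} [Field K]

/-- The polynomial identity behind the `X₀(15)` equation, in Tate normal form coordinates. -/
theorem x015_poly_identity (x d : K) :
    (d^2-11*d-1)^2 * x^5 * (x-d)^5 * (x^2-d*x-d^2)
      - 5 * d * (d^2-11*d-1) * (4*x^3+(d^2-6*d+1)*x^2+2*d*(d-1)*x+d^2)^2 * x^3 * (x-d)^3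
      - (9*x^2-9*d*x+d^2) * (4*x^3+(d^2-6*d+1)*x^2+2*d*(d-1)*x+d^2)^4
    = (3*x^4+(d^2-6*d+1)*x^3+3*d*(d-1)*x^2+3*d^2*x-d^3) *
      (-768*x^10 - 512*x^9*d^2 + 3840*x^9*d - 512*x^9 - 117*x^8*d^4 + 1886*x^8*d^3
        - 8051*x^8*d^2 + 2722*x^8*d - 117*x^8 - 9*x^7*d^6 + 274*x^7*d^5 - 2664*x^7*d^4
        + 9164*x^7*d^3 - 6008*x^7*d^2 + 662*x^7*d - 9*x^7 + 9*x^6*d^7 - 205*x^6*d^6
        + 1768*x^6*d^5 - 6117*x^6*d^4 + 7080*x^6*d^3 - 1563*x^6*d^2 + 54*x^6*d - x^5*d^8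
        + 48*x^5*d^7 - 528*x^5*d^6 + 2405*x^5*d^5 - 4760*x^5*d^4 + 1980*x^5*d^3 - 136*x^5*d^2
        + 50*x^4*d^7 - 524*x^4*d^6 + 1802*x^4*d^5 - 1435*x^4*d^4 + 185*x^4*d^3 + 51*x^3*d^7
        - 352*x^3*d^6 + 582*x^3*d^5 - 145*x^3*d^4 + 28*x^2*d^7 - 117*x^2*d^6 + 64*x^2*d^5
        + 8*x*d^7 - 14*x*d^6 + d^7) := by
  ring

/-- The `X₀(15)` equation in Tate normal form coordinates. -/
theorem x015_eq_param (x d : K) (hd : d ≠ 0)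
    (hpsi : 3*x^4+(d^2-6*d+1)*x^3+3*d*(d-1)*x^2+3*d^2*x-d^3 = 0)
    (hf : 4*x^3+(d^2-6*d+1)*x^2+2*d*(d-1)*x+d^2 ≠ 0) (g h : K)
    (hg : g = x*(x-d)/d^2)
    (hh : h = d^5*(d^2-11*d-1)/(4*x^3+(d^2-6*d+1)*x^2+2*d*(d-1)*x+d^2)^2) :
    h^2*g^5*(g-1) - 5*h*g^3 - 9*g - 1 = 0 := by
  have key := x015_poly_identity x d
  rw [hpsi, zero_mul] at key
  set f := 4*x^3+(d^2-6*d+1)*x^2+2*d*(d-1)*x+d^2 with hfdef
  have h1 : h^2*g^5*(g-1) - 5*h*g^3 - 9*g - 1 =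
      ((d^2-11*d-1)^2 * x^5 * (x-d)^5 * (x^2-d*x-d^2)
      - 5 * d * (d^2-11*d-1) * f^2 * x^3 * (x-d)^3
      - (9*x^2-9*d*x+d^2) * f^4) / (d^2 * f^4) := by
    rw [hg, hh]
    field_simp
    ring
  rw [h1, key, zero_div]

/-- **(A)** The `X₀(15)` equation from the relations satisfied by a point of order `5`
(shifted to the origin) and the `x`-coordinate `ξ` of a point of order `3`. -/
theorem x015_eq (B2 B4 B6 B8 δ ξ Δ g h : K)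
    (b8rel : 4*B8 = B2*B6 - B4^2) (r1 : B8 = -B6*δ) (r2 : δ^3 = B4*δ + B6)
    (hδ : δ ≠ 0) (hB6 : B6 ≠ 0)
    (hpsi : 3*ξ^4 + B2*ξ^3 + 3*B4*ξ^2 + 3*B6*ξ + B8 = 0)
    (hF : 4*ξ^3 + B2*ξ^2 + 2*B4*ξ + B6 ≠ 0)
    (hΔ : Δ = -B2^2*B8 - 8*B4^3 - 27*B6^2 + 9*B2*B4*B6)
    (hg : g = ξ*(ξ-δ)/δ^2) (hh : h = Δ/(4*ξ^3 + B2*ξ^2 + 2*B4*ξ + B6)^2) :
    h^2*g^5*(g-1) - 5*h*g^3 - 9*g - 1 = 0 := by
  obtain ⟨μ, hμdef⟩ : ∃ μ, μ = B6/δ^2 := ⟨_, rfl⟩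
  obtain ⟨d, hddef⟩ : ∃ d, d = δ^3/B6 := ⟨_, rfl⟩
  obtain ⟨x, hxdef⟩ : ∃ x, x = ξ/μ := ⟨_, rfl⟩
  have hμ : μ ≠ 0 := by rw [hμdef]; exact div_ne_zero hB6 (pow_ne_zero 2 hδ)
  have hd : d ≠ 0 := by rw [hddef]; exact div_ne_zero (pow_ne_zero 3 hδ) hB6
  have hδ' : δ = μ*d := by rw [hμdef, hddef]; field_simp
  have hB6' : B6 = μ^3*d^2 := by rw [hμdef, hddef]; field_simp
  have hξ : ξ = μ*x := by rw [hxdef]; field_simp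
  have hB4' : B4 = μ^2*d*(d-1) := by
    apply mul_right_cancel₀ hδ
    have : B4*δ = δ^3 - B6 := by linear_combination -r2
    rw [this, hB6', hδ']
    ring
  have hB8' : B8 = -μ^4*d^3 := by
    rw [r1, hB6', hδ']
    ring
  have hB2' : B2 = μ*(d^2-6*d+1) := by
    apply mul_right_cancel₀ hB6
    have : B2*B6 = 4*B8 + B4^2 := by linear_combination -b8rel
    rw [this, hB8', hB4', hB6']
    ring
  clear hμdef hddef hxdef b8rel r1 r2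
  subst hδ' hB6' hξ hB4' hB8' hB2'
  have hFeq : 4*(μ*x)^3 + μ*(d^2-6*d+1)*(μ*x)^2 + 2*(μ^2*d*(d-1))*(μ*x) + μ^3*d^2
      = μ^3 * (4*x^3+(d^2-6*d+1)*x^2+2*d*(d-1)*x+d^2) := by ring
  rw [hFeq] at hF hh
  have hf : 4*x^3+(d^2-6*d+1)*x^2+2*d*(d-1)*x+d^2 ≠ 0 := right_ne_zero_of_mul hF
  refine x015_eq_param x d hd ?_ hf g h ?_ ?_
  · have : μ^4 * (3*x^4+(d^2-6*d+1)*x^3+3*d*(d-1)*x^2+3*d^2*x-d^3) = 0 := by
      linear_combination hpsi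
    exact (mul_eq_zero.mp this).resolve_left (pow_ne_zero 4 hμ)
  · rw [hg]
    field_simp
  · rw [hh, hΔ]
    field_simp
    ring

/-- **(A')** The `j`-invariant in terms of `h = Δ / f(x_T)^2` for a point `T` of order `3`
(shifted invariants at `x_T`, so that `B8 = 0`). -/
theorem c4_cube_mul_h (B2 B4 B6 c4 Δ h : K) (hB6 : B6 ≠ 0)
    (b8rel : B4^2 = B2*B6) (hc4 : c4 = B2^2 - 24*B4)
    (hΔ : Δ = -8*B4^3 - 27*B6^2 + 9*B2*B4*B6) (hh : h = Δ/B6^2) :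
    c4^3*h = Δ*(h+27)*(h+3)^3 := by
  have hB2 : B2 = B4^2/B6 := by
    rw [b8rel]
    field_simp
  subst hB2
  rw [hh, hΔ, hc4]
  field_simp
  ring

end Fermat.Agent.S51
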