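/-
S51 (T3): 3-torsion points via the duplication formula.
-/
import Mathlib
import Fermat.Agent.S51.Dup
import Fermat.Agent.S51.Count
import Fermat.Agent.S51.Five

set_option autoImplicit false

namespace Fermat.Agent.S51

open WeierstrassCurve WeierstrassCurve.Affine Polynomial

variable {K : Type*} [Field K] {W : WeierstrassCurve.Affine K}

/-- `f` and `ψ₃` have no common zero on a nonsingular curve. -/
theorem fX_ne_zero_of_psi3X_eq_zero (hΔ : W.Δ ≠ 0) {x : K} (h0 : psi3X W x = 0) :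
    fX W x ≠ 0 := by
  intro hB6
  have hrel := four_psi3X (W := W) x
  have hB4 : B4 W x = 0 := by
    rw [hB6, h0] at hrel
    have : B4 W x ^ 2 = 0 := by linear_combination hrel
    exact pow_eq_zero_iff (by norm_num) |>.1 this
  apply hΔ
  rw [Δ_eq_shift x, hB6, h0, hB4]; ring

variable [DecidableEq K]

theorem three_torsion_rel {x y : K} (h : W.Nonsingular x y)
    (h3 : (3 : ℕ) • Point.some x y h = 0) : psi3X W x = 0 ∧ fX W x ≠ 0 := by
  set P := Point.some x y h with hP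
  have h3' : P + P = -P := by
    have : (3 : ℕ) • P = P + P + P := by
      simp only [show (3 : ℕ) = 1 + 1 + 1 from rfl, add_smul, one_smul]
    rw [this] at h3
    exact eq_neg_of_add_eq_zero_left h3
  rw [hP, Point.neg_some] at h3'
  obtain ⟨hf, hr⟩ := dup_x h _ h3'
  refine ⟨?_, hf⟩
  linear_combination hr

theorem three_torsion_of_psi3X_eq_zero (hΔ : W.Δ ≠ 0) {x y : K} (h : W.Nonsingular x y)
    (h0 : psi3X W x = 0) : (3 : ℕ) • Point.some x y h = 0 := by
  have hB6 := fX_ne_zero_of_psi3X_eq_zero hΔ h0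
  set P := Point.some x y h with hP
  have hP0 : P ≠ 0 := Point.some_ne_zero _
  rcases hQ : P + P with _ | ⟨x₂, y₂, h₂⟩
  · exact absurd ((add_self_eq_zero_iff h).1 hQ) hB6
  obtain ⟨-, hr1⟩ := dup_x h h₂ hQ
  have hx : x₂ = x := by
    rw [h0, neg_zero] at hr1
    rcases mul_eq_zero.1 hr1 with h' | h'
    · exact sub_eq_zero.1 h'
    · exact absurd h' hB6
  have h2 : P + P = P ∨ P + P = -P := by
    rw [hQ, hP]
    exact (Point.X_eq_iff (h₁ := h₂) (h₂ := h)).1 hx
  have h3 : (3 : ℕ) • P = P + P + P := by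
    simp only [show (3 : ℕ) = 1 + 1 + 1 from rfl, add_smul, one_smul]
  rcases h2 with h2 | h2
  · simp at h2
  · rw [h3, h2]; abel

/-- `ψ₃` as a polynomial. -/
noncomputable def psi3P (W : WeierstrassCurve.Affine K) : K[X] :=
  C 3 * X ^ 4 + C W.b₂ * X ^ 3 + C (3 * W.b₄) * X ^ 2 + C (3 * W.b₆) * X + C W.b₈

omit [DecidableEq K] in
theorem psi3P_eval (x : K) : (psi3P W).eval x = psi3X W x := by
  simp only [psi3P, psi3X, eval_add, eval_mul, eval_pow, eval_C, eval_X]

omit [DecidableEq K] in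
theorem psi3P_coeff : (psi3P W).coeff 4 = 3 := by
  unfold psi3P
  compute_degree
  all_goals norm_num

omit [DecidableEq K] in
theorem psi3P_natDegree_le : (psi3P W).natDegree ≤ 4 := by
  unfold psi3P
  compute_degree

omit [DecidableEq K] in
theorem psi3P_ne_zero (h3 : (3 : K) ≠ 0) : psi3P W ≠ 0 := by
  intro h
  have := psi3P_coeff (W := W)
  rw [h, coeff_zero] at this
  exact h3 this.symm

omit [DecidableEq K] in
theorem psi3P_natDegree (h3 : (3 : K) ≠ 0) : (psi3P W).natDegree = 4 := by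
  refine le_antisymm psi3P_natDegree_le (le_natDegree_of_ne_zero ?_)
  rw [psi3P_coeff]
  exact h3

/-- `|E[3]| ≤ 9`. -/
theorem finite_card_three_torsion_le (h3 : (3 : K) ≠ 0) :
    Finite (Submodule.torsionBy ℤ W.Point ((3 : ℕ) : ℤ)) ∧
      Nat.card (Submodule.torsionBy ℤ W.Point ((3 : ℕ) : ℤ)) ≤ 9 :=
  finite_card_torsionBy_le 3 (psi3P W) (psi3P_ne_zero h3) 4 psi3P_natDegree_le
    (fun x y h h0 => by rw [psi3P_eval]; exact (three_torsion_rel h h0).1)

/-- `E[3]` is nontrivial over an algebraically closed field of characteristic `≠ 3`. -/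
theorem nontrivial_three_torsion [IsAlgClosed K] (hΔ : W.Δ ≠ 0) (h3 : (3 : K) ≠ 0) :
    Nontrivial (Submodule.torsionBy ℤ W.Point ((3 : ℕ) : ℤ)) := by
  have hdeg : (psi3P W).degree ≠ 0 := by
    rw [degree_eq_natDegree (psi3P_ne_zero h3), psi3P_natDegree h3]; norm_num
  obtain ⟨x₁, hx₁⟩ := IsAlgClosed.exists_root _ hdeg
  rw [IsRoot.def, psi3P_eval] at hx₁
  obtain ⟨y₁, hy₁⟩ := exists_equation (W := W) x₁
  have h₁ : W.Nonsingular x₁ y₁ := (equation_iff_nonsingular_of_Δ_ne_zero hΔ).1 hy₁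
  have ht := three_torsion_of_psi3X_eq_zero hΔ h₁ hx₁
  refine ⟨⟨⟨Point.some x₁ y₁ h₁, ?_⟩, 0, ?_⟩⟩
  · rw [Submodule.mem_torsionBy_iff, natCast_zsmul]
    exact ht
  · intro h
    exact Point.some_ne_zero h₁ (congrArg Subtype.val h)

end Fermat.Agent.S51
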