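import Mathlib
import Fermat.Prelude.Def_FLTPrelim_GaloisRep
import Fermat.Agent.S51.Galois
import Fermat.Agent.S51.Three
import Fermat.Agent.S51.Five
import Fermat.Agent.S51.Identities

/-!
# S51: from reducibility of `E[3]` and `E[5]` to a rational point on `X₀(15)`
-/

set_option autoImplicit false
open WeierstrassCurve WeierstrassCurve.Affine WeierstrassCurve.Affine.Point

namespace Fermat.Agent.S51

section Multiples

variable {F : Type*} [Field F] [DecidableEq F] {V : Affine F}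

theorem xc_nsmul_three (P : V.Point) (h3 : (3 : ℕ) • P = 0) (k : ℕ) (hk : k • P ≠ 0) :
    xc (k • P) = xc P := by
  have hk' : k • P = (k % 3) • P := by
    conv_lhs => rw [← Nat.div_add_mod k 3, add_smul, mul_comm, mul_smul, h3, smul_zero, zero_add]
  rw [hk'] at hk ⊢
  have hlt : k % 3 < 3 := Nat.mod_lt _ (by norm_num)
  have h2 : (2 : ℕ) • P = -P := by
    have : (3 : ℕ) • P = (2 : ℕ) • P + P := by rw [show (3 : ℕ) = 2 + 1 from rfl, add_smul, one_smul]
    rw [this] at h3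
    exact eq_neg_of_add_eq_zero_left h3
  interval_cases h : k % 3
  · exact absurd (zero_smul ℕ P) hk
  · rw [one_smul]
  · rw [h2, xc_neg]

theorem xc_nsmul_five (P : V.Point) (h5 : (5 : ℕ) • P = 0) (k : ℕ) (hk : k • P ≠ 0) :
    (xc (k • P) = xc P ∧ xc (k • (P + P)) = xc (P + P)) ∨
      (xc (k • P) = xc (P + P) ∧ xc (k • (P + P)) = xc P) := by
  have hk' : k • P = (k % 5) • P := by
    conv_lhs => rw [← Nat.div_add_mod k 5, add_smul, mul_comm, mul_smul, h5, smul_zero, zero_add]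
  have hk2 : k • (P + P) = (k % 5) • P + (k % 5) • P := by
    rw [smul_add, hk']
  rw [hk2]
  rw [hk'] at hk ⊢
  have hlt : k % 5 < 5 := Nat.mod_lt _ (by norm_num)
  have h5' : P + P + (P + P) = -P := by
    have : (5 : ℕ) • P = P + P + (P + P) + P := by
      simp only [show (5 : ℕ) = 1 + 1 + 1 + 1 + 1 from rfl, add_smul, one_smul]; abel
    rw [this] at h5
    exact eq_neg_of_add_eq_zero_left h5
  interval_cases h : k % 5
  · exact absurd (zero_smul ℕ P) hk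
  · left
    simp only [one_smul, and_self]
  · right
    have e2 : (2 : ℕ) • P = P + P := two_smul ℕ P
    rw [e2, h5', xc_neg]
    exact ⟨rfl, rfl⟩
  · right
    have e3 : (3 : ℕ) • P = -(P + P) := by
      have : (3 : ℕ) • P = (P + P + (P + P)) - P := by
        simp only [show (3 : ℕ) = 1 + 1 + 1 from rfl, add_smul, one_smul]; abel
      rw [this, h5']; abel
    have e6 : -(P + P) + -(P + P) = P := by
      have : -(P + P) + -(P + P) = -(P + P + (P + P)) := by abel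
      rw [this, h5', neg_neg]
    rw [e3, e6, xc_neg]
    exact ⟨rfl, rfl⟩
  · left
    have e4 : (4 : ℕ) • P = -P := by
      have : (4 : ℕ) • P = P + P + (P + P) := by
        simp only [show (4 : ℕ) = 1 + 1 + 1 + 1 from rfl, add_smul, one_smul]; abel
      rw [this, h5']
    have e8 : -P + -P = -(P + P) := by abel
    rw [e4, e8, xc_neg, xc_neg]
    exact ⟨rfl, rfl⟩

end Multiples

section Transfer

variable (E : WeierstrassCurve ℚ)

local notation "K" => AlgebraicClosure ℚ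

theorem fX_baseChange (r : ℚ) :
    fX (E⁄K) (algebraMap ℚ K r) = algebraMap ℚ K (fX E r) := by
  simp only [fX, Affine.baseChange, WeierstrassCurve.baseChange, WeierstrassCurve.map_b₂,
    WeierstrassCurve.map_b₄, WeierstrassCurve.map_b₆, map_add, map_mul, map_pow, map_ofNat]

theorem psi3X_baseChange (r : ℚ) :
    psi3X (E⁄K) (algebraMap ℚ K r) = algebraMap ℚ K (psi3X E r) := by
  simp only [psi3X, Affine.baseChange, WeierstrassCurve.baseChange, WeierstrassCurve.map_b₂,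
    WeierstrassCurve.map_b₄, WeierstrassCurve.map_b₆, WeierstrassCurve.map_b₈, map_add, map_mul,
    map_pow, map_ofNat]

theorem Δ_baseChange : (E⁄K).Δ = algebraMap ℚ K E.Δ := by
  simp only [Affine.baseChange, WeierstrassCurve.baseChange, WeierstrassCurve.map_Δ]

end Transfer

theorem c₄_eq_shift {F : Type*} [Field F] (V : Affine F) (x : F) :
    V.c₄ = B2 V x ^ 2 - 24 * B4 V x := by
  simp only [WeierstrassCurve.c₄, B2, B4]; ring

section Main

local notation "Qb" => AlgebraicClosure ℚ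

/-- A Galois-stable line in `E[n]`, extracted from reducibility. -/
theorem exists_stable_line (E : WeierstrassCurve ℚ) (n : ℕ)
    (hnt : Nontrivial (Submodule.torsionBy ℤ (E⁄Qb).Point n))
    (h : ¬ GaloisRepIsIrreducible (K := Qb) ℚ E n) :
    ∃ N : Submodule (ZMod n) (Submodule.torsionBy ℤ (E⁄Qb).Point n),
      IsGaloisStable ℚ N ∧ N ≠ ⊥ ∧ N ≠ ⊤ := by
  by_contra hcon
  apply h
  refine ⟨hnt, fun N hN => ?_⟩
  by_contra hN'
  push Not at hN'
  exact hcon ⟨N, hN, hN'.1, hN'.2⟩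

/-- In a Galois stable line every conjugate of a nonzero point `T` is a nonzero multiple of `T`. -/
theorem exists_smul_eq_nsmul (E : WeierstrassCurve ℚ) (p : ℕ) [Fact p.Prime]
    (hfin : Finite (Submodule.torsionBy ℤ (E⁄Qb).Point p))
    (hcard : Nat.card (Submodule.torsionBy ℤ (E⁄Qb).Point p) ≤ p ^ 2)
    (N : Submodule (ZMod p) (Submodule.torsionBy ℤ (E⁄Qb).Point p))
    (hs : IsGaloisStable ℚ N) (hb : N ≠ ⊥) (ht : N ≠ ⊤) :
    ∃ T : (E⁄Qb).Point, T ≠ 0 ∧ p • T = 0 ∧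
      ∀ σ : Qb ≃ₐ[ℚ] Qb, ∃ k : ℕ, σ • T = k • T ∧ k • T ≠ 0 := by
  obtain ⟨T, hTN, hT0⟩ := Submodule.exists_mem_ne_zero_of_ne_bot hb
  have hT0' : (T : (E⁄Qb).Point) ≠ 0 := fun h => hT0 (Subtype.ext h)
  refine ⟨T, hT0', ?_, fun σ => ?_⟩
  · have := T.2
    rw [Submodule.mem_torsionBy_iff, natCast_zsmul] at this
    exact this
  · obtain ⟨k, hk⟩ := exists_nsmul_of_mem_line hcard N hb ht hTN hT0 (σ • T) (hs σ T hTN)
    have hk' : σ • (T : (E⁄Qb).Point) = k • (T : (E⁄Qb).Point) := by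
      calc σ • (T : (E⁄Qb).Point) = ((σ • T : Submodule.torsionBy ℤ (E⁄Qb).Point p) : (E⁄Qb).Point) := rfl
        _ = ((k • T : Submodule.torsionBy ℤ (E⁄Qb).Point p) : (E⁄Qb).Point) := congrArg Subtype.val hk
        _ = k • (T : (E⁄Qb).Point) := by simp
    refine ⟨k, hk', ?_⟩
    rw [← hk']
    exact (smul_ne_zero_iff_ne σ).2 hT0'

/-- **Core**: if both `E[3]` and `E[5]` are reducible we get a rational point `(g,h)` on
(a model of) `X₀(15)`, with `j(E) = (h+27)(h+3)³/h`. -/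
theorem core (E : WeierstrassCurve ℚ) (hΔ : E.Δ ≠ 0)
    (h3 : ¬ GaloisRepIsIrreducible (K := Qb) ℚ E 3)
    (h5 : ¬ GaloisRepIsIrreducible (K := Qb) ℚ E 5) :
    ∃ g h : ℚ, g ≠ 0 ∧ h ≠ 0 ∧ h ^ 2 * g ^ 5 * (g - 1) - 5 * h * g ^ 3 - 9 * g - 1 = 0 ∧
      E.c₄ ^ 3 * h = E.Δ * (h + 27) * (h + 3) ^ 3 := by
  have hVΔ : (E⁄Qb).Δ ≠ 0 := by rw [Δ_baseChange]; exact (map_ne_zero _).2 hΔ
  have hK3 : (3 : Qb) ≠ 0 := by norm_num
  have hK5 : (5 : Qb) ≠ 0 := by norm_num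
  have : Fact (Nat.Prime 3) := ⟨Nat.prime_three⟩
  have : Fact (Nat.Prime 5) := ⟨Nat.prime_five⟩
  -- the point of order 3
  obtain ⟨N3, hN3s, hN3b, hN3t⟩ := exists_stable_line E 3 (nontrivial_three_torsion hVΔ hK3) h3
  obtain ⟨hfin3, hcard3⟩ := finite_card_three_torsion_le (W := E⁄Qb) hK3
  obtain ⟨T, hT0, hT3, hTσ⟩ := exists_smul_eq_nsmul E 3 hfin3 (by simpa using hcard3) N3 hN3s
    hN3b hN3t
  -- the point of order 5
  obtain ⟨N5, hN5s, hN5b, hN5t⟩ := exists_stable_line E 5 (nontrivial_five_torsion hVΔ hK5) h5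
  obtain ⟨hfin5, hcard5⟩ := finite_card_five_torsion_le (W := E⁄Qb) hK5
  obtain ⟨P, hP0, hP5, hPσ⟩ := exists_smul_eq_nsmul E 5 hfin5 (by simpa using hcard5) N5 hN5s
    hN5b hN5t
  -- rationality of `x_T`
  have hxTfix : ∀ σ : Qb ≃ₐ[ℚ] Qb, σ (xc T) = xc T := by
    intro σ
    obtain ⟨k, hk, hk0⟩ := hTσ σ
    rw [← xc_smul, hk, xc_nsmul_three T hT3 k hk0]
  obtain ⟨rT, hrT⟩ := exists_rat_of_fixed _ hxTfix
  -- Galois action on `x₁, x₂`
  have hPfix : ∀ σ : Qb ≃ₐ[ℚ] Qb, (σ (xc P) = xc P ∧ σ (xc (P + P)) = xc (P + P)) ∨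
      (σ (xc P) = xc (P + P) ∧ σ (xc (P + P)) = xc P) := by
    intro σ
    obtain ⟨k, hk, hk0⟩ := hPσ σ
    have hk2 : σ • (P + P) = k • (P + P) := by
      rw [_root_.smul_add σ P P, hk, _root_.smul_add k P P]
    rw [← xc_smul, ← xc_smul, hk, hk2]
    exact xc_nsmul_five P hP5 k hk0
  -- coordinates
  rcases T with _ | ⟨xT, yT, hT⟩
  · exact absurd rfl hT0
  rcases P with _ | ⟨x₁, y₁, h₁⟩
  · exact absurd rfl hP0
  obtain ⟨hpsiT, hfT⟩ := three_torsion_rel hT hT3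
  obtain ⟨x₂, y₂, h₂, hdup, hne, hf1, hf2, hr1, hr2⟩ := five_torsion_rel h₁ hP5
  rw [hdup] at hPfix
  simp only [xc_some] at hPfix hrT hxTfix
  -- the invariant `g`
  obtain ⟨gK, hgK⟩ : ∃ gK : Qb, gK = (xT - x₁) * ((xT - x₁) - (x₂ - x₁)) / (x₂ - x₁) ^ 2 :=
    ⟨_, rfl⟩
  have hgfix : ∀ σ : Qb ≃ₐ[ℚ] Qb, σ gK = gK := by
    intro σ
    rw [hgK]
    simp only [map_div₀, map_mul, map_sub, map_pow, hxTfix σ]
    rcases hPfix σ with ⟨e1, e2⟩ | ⟨e1, e2⟩
    · rw [e1, e2]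
    · rw [e1, e2, show (x₁ - x₂) ^ 2 = (x₂ - x₁) ^ 2 by ring]
      ring
  obtain ⟨g, hg⟩ := exists_rat_of_fixed _ hgfix
  -- facts over `ℚ`
  have hinj : Function.Injective (algebraMap ℚ Qb) := (algebraMap ℚ Qb).injective
  have hpsiQ : psi3X E rT = 0 := by
    apply hinj
    rw [← psi3X_baseChange, hrT, hpsiT, _root_.map_zero]
  have hfQ : fX E rT ≠ 0 := by
    intro h0
    apply hfT
    rw [← hrT, fX_baseChange, h0, _root_.map_zero]
  have heq : (E.Δ / fX E rT ^ 2) ^ 2 * g ^ 5 * (g - 1) - 5 * (E.Δ / fX E rT ^ 2) * g ^ 3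
      - 9 * g - 1 = 0 := by
    -- the `X₀(15)` equation
    apply hinj
    have hxT : x₁ + (xT - x₁) = xT := by ring
    have key := x015_eq (B2 (E⁄Qb) x₁) (B4 (E⁄Qb) x₁) (fX (E⁄Qb) x₁) (psi3X (E⁄Qb) x₁) (x₂ - x₁)
      (xT - x₁) (E⁄Qb).Δ gK ((E⁄Qb).Δ / fX (E⁄Qb) xT ^ 2) (four_psi3X x₁)
      (by linear_combination hr1) (five_alg hne hr1 hr2) (sub_ne_zero.2 hne) hf1
      (by rw [← psi3X_add, hxT]; exact hpsiT) (by rw [← fX_add, hxT]; exact hfT)
      (Δ_eq_shift x₁) hgK (by rw [← fX_add, hxT])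
    rw [← hg, ← hrT, fX_baseChange, Δ_baseChange] at key
    simpa only [map_sub, map_mul, map_pow, map_div₀, map_ofNat, map_one, _root_.map_zero] using key
  refine ⟨g, E.Δ / fX E rT ^ 2, ?_, div_ne_zero hΔ (pow_ne_zero 2 hfQ), heq, ?_⟩
  · rintro rfl
    norm_num at heq
  · -- the `j`-invariant
    refine c4_cube_mul_h (B2 E rT) (B4 E rT) (fX E rT) E.c₄ E.Δ _ hfQ ?_ (c₄_eq_shift E rT) ?_ rfl
    · have := four_psi3X (W := E) rT
      rw [hpsiQ] at this
      linear_combination this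
    · have := Δ_eq_shift (W := E) rT
      rw [hpsiQ] at this
      linear_combination this

end Main

end Fermat.Agent.S51
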