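import Fermat.Agent.S51.Descent

/-!
# Rational points on `y ^ 2 = x (x + 9) (x - 16)` (the curve 15a1 = X₀(15)) and consequences
-/

set_option autoImplicit false

namespace Fermat.Agent.S51

/-- rational version of the key descent -/
theorem no_rat_concordant (s₁ s₂ s₃ : ℚ) (h1 : s₂ ^ 2 = s₁ ^ 2 + 80) (h2 : s₃ ^ 2 = s₁ ^ 2 + 81) :
    False := by
  -- common denominator
  set D : ℤ := (s₁.den : ℤ) * s₂.den * s₃.den with hD
  have hd1 : (s₁.den : ℚ) ≠ 0 := by exact_mod_cast s₁.den_nz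
  have hd2 : (s₂.den : ℚ) ≠ 0 := by exact_mod_cast s₂.den_nz
  have hd3 : (s₃.den : ℚ) ≠ 0 := by exact_mod_cast s₃.den_nz
  have hD0 : D ≠ 0 := by
    rw [hD]
    have a1 : (s₁.den : ℤ) ≠ 0 := by exact_mod_cast s₁.den_nz
    have a2 : (s₂.den : ℤ) ≠ 0 := by exact_mod_cast s₂.den_nz
    have a3 : (s₃.den : ℤ) ≠ 0 := by exact_mod_cast s₃.den_nz
    positivity
  have e1 : s₁ = s₁.num / s₁.den := (Rat.num_div_den s₁).symm
  have e2 : s₂ = s₂.num / s₂.den := (Rat.num_div_den s₂).symm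
  have e3 : s₃ = s₃.num / s₃.den := (Rat.num_div_den s₃).symm
  refine key_descent (s₁.num * s₂.den * s₃.den) D (s₂.num * s₁.den * s₃.den)
    (s₃.num * s₁.den * s₂.den) hD0 ?_ ?_
  · have : ((s₁.num * s₂.den * s₃.den : ℤ) : ℚ) ^ 2 + 80 * (D : ℚ) ^ 2
        = ((s₂.num * s₁.den * s₃.den : ℤ) : ℚ) ^ 2 := by
      rw [hD]
      push_cast
      rw [e1, e2] at h1
      field_simp at h1
      linear_combination (-(s₃.den : ℚ) ^ 2) * h1
    exact_mod_cast this
  · have : ((s₁.num * s₂.den * s₃.den : ℤ) : ℚ) ^ 2 + 81 * (D : ℚ) ^ 2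
        = ((s₃.num * s₁.den * s₂.den : ℤ) : ℚ) ^ 2 := by
      rw [hD]
      push_cast
      rw [e1, e3] at h2
      field_simp at h2
      linear_combination (-(s₂.den : ℚ) ^ 2) * h2
    exact_mod_cast this

/-- The rational points of `15a1 : y² = x (x + 9) (x - 16)`. -/
theorem E15_points (x y : ℚ) (h : y ^ 2 = x * (x + 9) * (x - 16)) :
    x = 0 ∨ x = -9 ∨ x = 16 ∨ x = 36 ∨ x = -4 := by
  by_cases hy : y = 0
  · subst hy
    have h0 : x * (x + 9) * (x - 16) = 0 := by linarith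
    rcases mul_eq_zero.1 h0 with h1 | h1
    · rcases mul_eq_zero.1 h1 with h2 | h2
      · exact Or.inl h2
      · exact Or.inr (Or.inl (by linarith))
    · exact Or.inr (Or.inr (Or.inl (by linarith)))
  · set r : ℚ := ((x - 16) ^ 2 - 400) / (2 * y) with hr
    set a : ℚ := (x ^ 2 + 144) / (2 * y) with ha
    set b : ℚ := ((x + 9) ^ 2 - 225) / (2 * y) with hb
    have ha2 : a ^ 2 = r ^ 2 + 16 := by
      rw [ha, hr]
      field_simp
      linear_combination (-64 : ℚ) * h
    have hb2 : b ^ 2 = r ^ 2 + 25 := by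
      rw [hb, hr]
      field_simp
      linear_combination (-100 : ℚ) * h
    by_cases hr0 : r = 0
    · have h1 : (x - 16) ^ 2 - 400 = 0 := by
        rw [hr, div_eq_zero_iff] at hr0
        rcases hr0 with h2 | h2
        · exact h2
        · exact absurd h2 (by positivity)
      have h2 : (x - 36) * (x + 4) = 0 := by linear_combination h1
      rcases mul_eq_zero.1 h2 with h3 | h3
      · exact Or.inr (Or.inr (Or.inr (Or.inl (by linarith))))
      · exact Or.inr (Or.inr (Or.inr (Or.inr (by linarith))))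
    · exfalso
      refine no_rat_concordant ((r ^ 2 - 20) / r) ((r ^ 2 + 20) / r) (a * b / r) ?_ ?_
      · field_simp
        ring
      · have : (a * b / r) ^ 2 = (r ^ 2 + 16) * (r ^ 2 + 25) / r ^ 2 := by
          rw [div_pow, mul_pow, ha2, hb2]
        rw [this]
        field_simp
        ring

/-- Rational points of the model `h² g⁵ (g - 1) - 5 h g³ - 9 g - 1 = 0` of `X₀(15)`. -/
theorem gh_list (g h : ℚ) (hg : g ≠ 0) (hh : h ≠ 0)
    (H : h ^ 2 * g ^ 5 * (g - 1) - 5 * h * g ^ 3 - 9 * g - 1 = 0) :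
    h = -2 ∨ h = -32 ∨ h = -729 / 32 ∨ h = -729 / 2 := by
  have hE : (36 * (2 * g ^ 3 * (g - 1) * h - 5 * g)) ^ 2
      = (36 * g) * (36 * g + 9) * (36 * g - 16) := by
    linear_combination (5184 * g * (g - 1)) * H
  rcases E15_points _ _ hE with h1 | h1 | h1 | h1 | h1
  · exact absurd (by linarith : g = 0) hg
  · have hg' : g = -1 / 4 := by linarith
    subst hg'
    have h2 : (h + 32) ^ 2 = 0 := by linear_combination (4096 / 5 : ℚ) * H
    exact Or.inr (Or.inl (by have := pow_eq_zero_iff (two_ne_zero) |>.1 h2; linarith))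
  · have hg' : g = 4 / 9 := by linarith
    subst hg'
    have h2 : (32 * h + 729) ^ 2 = 0 := by linear_combination (-531441 / 5 : ℚ) * H
    exact Or.inr (Or.inr (Or.inl (by have := pow_eq_zero_iff (two_ne_zero) |>.1 h2; linarith)))
  · have hg' : g = 1 := by linarith
    subst hg'
    exact Or.inl (by linarith)
  · have hg' : g = -1 / 9 := by linarith
    subst hg'
    have h2 : h * (2 * h + 729) = 0 := by linear_combination (531441 / 5 : ℚ) * H
    rcases mul_eq_zero.1 h2 with h3 | h3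
    · exact absurd h3 hh
    · exact Or.inr (Or.inr (Or.inr (by linarith)))

lemma five_dvd_aux {a b c4 D : ℤ} (ha : ¬ (5 : ℤ) ∣ a) (hb : ¬ (5 : ℤ) ∣ b)
    (h : a * c4 ^ 3 = 5 * b * D ∨ a * c4 ^ 3 = 25 * b * D) : (5 : ℤ) ∣ D ∧ (5 : ℤ) ∣ c4 := by
  have p5 : Prime (5 : ℤ) := by norm_num
  have hc : (5 : ℤ) ∣ c4 := by
    have h1 : (5 : ℤ) ∣ a * c4 ^ 3 := by
      rcases h with h | h
      · exact ⟨b * D, by rw [h]; ring⟩
      · exact ⟨5 * b * D, by rw [h]; ring⟩
    rcases p5.dvd_or_dvd h1 with h2 | h2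
    · exact absurd h2 ha
    · exact p5.dvd_of_dvd_pow h2
  refine ⟨?_, hc⟩
  obtain ⟨k, rfl⟩ := hc
  have h1 : (5 : ℤ) ∣ b * D := by
    rcases h with h | h
    · exact ⟨5 * a * k ^ 3, by linarith⟩
    · exact ⟨a * k ^ 3, by linarith⟩
  rcases p5.dvd_or_dvd h1 with h2 | h2
  · exact absurd h2 hb
  · exact h2

/-- The four exceptional `j`-invariants are not semistable at `5`. -/
theorem final_arith (c4 D : ℤ) (h : ℚ) (hss : ¬ ((5 : ℤ) ∣ D ∧ (5 : ℤ) ∣ c4))
    (hj : (c4 : ℚ) ^ 3 * h = D * (h + 27) * (h + 3) ^ 3)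
    (hh : h = -2 ∨ h = -32 ∨ h = -729 / 32 ∨ h = -729 / 2) : False := by
  apply hss
  rcases hh with rfl | rfl | rfl | rfl
  · have h1 : ((-2 * c4 ^ 3 : ℤ) : ℚ) = ((25 * 1 * D : ℤ) : ℚ) := by
      push_cast
      linear_combination hj
    exact five_dvd_aux (a := -2) (b := 1) (by norm_num) (by norm_num) (Or.inr (by exact_mod_cast h1))
  · have h1 : ((-32 * c4 ^ 3 : ℤ) : ℚ) = ((5 * 24389 * D : ℤ) : ℚ) := by
      push_cast
      linear_combination hj
    exact five_dvd_aux (a := -32) (b := 24389) (by norm_num) (by norm_num)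
      (Or.inl (by exact_mod_cast h1))
  · have h1 : ((32768 * c4 ^ 3 : ℤ) : ℚ) = ((5 * 9393931 * D : ℤ) : ℚ) := by
      push_cast
      linear_combination (-1048576 / 729 : ℚ) * hj
    exact five_dvd_aux (a := 32768) (b := 9393931) (by norm_num) (by norm_num)
      (Or.inl (by exact_mod_cast h1))
  · have h1 : ((-8 * c4 ^ 3 : ℤ) : ℚ) = ((25 * 13997521 * D : ℤ) : ℚ) := by
      push_cast
      linear_combination (16 / 729 : ℚ) * hj
    exact five_dvd_aux (a := -8) (b := 13997521) (by norm_num) (by norm_num)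
      (Or.inr (by exact_mod_cast h1))

end Fermat.Agent.S51
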