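import Mathlib

/-!
# The key descent for S51

`X ^ 2 + 80 * Y ^ 2 = Z ^ 2`, `X ^ 2 + 81 * Y ^ 2 = W ^ 2` has no integer solution with `Y ≠ 0`
(full 2-descent on the elliptic curve 15a2 : `y ^ 2 = x (x + 80) (x + 81)`).
-/

set_option autoImplicit false

namespace Fermat.Agent.S51

/-- the pair of concordant forms -/
def Sol (X Y Z W : ℤ) : Prop := X ^ 2 + 80 * Y ^ 2 = Z ^ 2 ∧ X ^ 2 + 81 * Y ^ 2 = W ^ 2

lemma sq_of_mul_sq {u v y : ℤ} (h : u * v = y ^ 2) (hc : IsCoprime u v) (hu : 0 ≤ u) :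
    ∃ a, u = a ^ 2 := by
  obtain ⟨a, ha | ha⟩ := Int.sq_of_isCoprime hc h
  · exact ⟨a, ha⟩
  · refine ⟨0, ?_⟩
    nlinarith [sq_nonneg a]

lemma five_case {u v y : ℤ} (h : u * v = 5 * y ^ 2) (hc : IsCoprime u v) (hu : 0 ≤ u)
    (hv : 0 ≤ v) : (∃ a, u = a ^ 2) ∨ (∃ b, v = b ^ 2) := by
  have h5 : (5 : ℤ) ∣ u * v := ⟨y ^ 2, h⟩
  have p5 : Prime (5 : ℤ) := by norm_num
  rcases p5.dvd_or_dvd h5 with ⟨u', rfl⟩ | ⟨v', rfl⟩
  · right
    have h1 : v * u' = y ^ 2 := by linarith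
    exact sq_of_mul_sq h1 (hc.symm.of_mul_right_right) hv
  · left
    have h1 : u * v' = y ^ 2 := by linarith
    exact sq_of_mul_sq h1 (hc.of_mul_right_right) hu

lemma Sol.coprime_of_minimal {X Y Z W : ℤ} (h : Sol X Y Z W) (hY : Y ≠ 0)
    (hmin : ∀ X' Y' Z' W' : ℤ, Y' ≠ 0 → Y'.natAbs < Y.natAbs → ¬ Sol X' Y' Z' W') :
    IsCoprime X Y := by
  rw [Int.isCoprime_iff_gcd_eq_one]
  by_contra hg
  have hgpos : 0 < Int.gcd X Y := Int.gcd_pos_of_ne_zero_right _ hY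
  obtain ⟨x, hx⟩ : ((Int.gcd X Y : ℕ) : ℤ) ∣ X := Int.gcd_dvd_left ..
  obtain ⟨y, hy⟩ : ((Int.gcd X Y : ℕ) : ℤ) ∣ Y := Int.gcd_dvd_right ..
  generalize Int.gcd X Y = g at *
  have hg0 : (g : ℤ) ≠ 0 := by exact_mod_cast hgpos.ne'
  have hZ : (g : ℤ) ∣ Z := by
    rw [← Int.pow_dvd_pow_iff (n := 2) (by norm_num), ← h.1, hx, hy]
    exact ⟨x ^ 2 + 80 * y ^ 2, by ring⟩
  have hW : (g : ℤ) ∣ W := by
    rw [← Int.pow_dvd_pow_iff (n := 2) (by norm_num), ← h.2, hx, hy]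
    exact ⟨x ^ 2 + 81 * y ^ 2, by ring⟩
  obtain ⟨z, hz⟩ := hZ
  obtain ⟨w, hw⟩ := hW
  have hy0 : y ≠ 0 := by
    rintro rfl
    exact hY (by rw [hy]; ring)
  have hlt : y.natAbs < Y.natAbs := by
    rw [hy, Int.natAbs_mul, Int.natAbs_natCast]
    have h1 : 0 < y.natAbs := Int.natAbs_pos.mpr hy0
    have h2 : 2 ≤ g := by omega
    nlinarith
  refine hmin x y z w hy0 hlt ⟨?_, ?_⟩
  · have h1 := h.1
    rw [hx, hy, hz] at h1
    have h2 : (g : ℤ) ^ 2 * (x ^ 2 + 80 * y ^ 2) = (g : ℤ) ^ 2 * z ^ 2 := by linarith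
    exact mul_left_cancel₀ (pow_ne_zero 2 hg0) h2
  · have h1 := h.2
    rw [hx, hy, hw] at h1
    have h2 : (g : ℤ) ^ 2 * (x ^ 2 + 81 * y ^ 2) = (g : ℤ) ^ 2 * w ^ 2 := by linarith
    exact mul_left_cancel₀ (pow_ne_zero 2 hg0) h2

lemma Sol.neg_left {X Y Z W : ℤ} (h : Sol X Y Z W) : Sol (-X) Y Z W :=
  ⟨by rw [neg_sq]; exact h.1, by rw [neg_sq]; exact h.2⟩

lemma Sol.next {X Y Z W X' Z' W' : ℤ} (h : Sol X Y Z W) (h1 : X' ^ 2 = (Z + X) * (W + X))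
    (h2 : Z' ^ 2 = (Z + X) * (W + Z)) (h3 : W' ^ 2 = (W + X) * (W + Z)) : Sol X' Y Z' W' :=
  ⟨by rw [h1, h2]; linear_combination h.1, by rw [h1, h3]; linear_combination h.2⟩

lemma Sol.coprime_ZY {X Y Z W : ℤ} (h : Sol X Y Z W) (hc : IsCoprime X Y) : IsCoprime Z Y := by
  rw [← IsCoprime.pow_left_iff (m := 2) (by norm_num), ← h.1]
  have h1 : IsCoprime (X ^ 2) Y := hc.pow_left
  have e : X ^ 2 + 80 * Y ^ 2 = X ^ 2 + Y * (80 * Y) := by ring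
  rw [e]
  exact h1.add_mul_left_left (80 * Y)

lemma Sol.coprime_WY {X Y Z W : ℤ} (h : Sol X Y Z W) (hc : IsCoprime X Y) : IsCoprime W Y := by
  rw [← IsCoprime.pow_left_iff (m := 2) (by norm_num), ← h.2]
  have h1 : IsCoprime (X ^ 2) Y := hc.pow_left
  have e : X ^ 2 + 81 * Y ^ 2 = X ^ 2 + Y * (81 * Y) := by ring
  rw [e]
  exact h1.add_mul_left_left (81 * Y)

lemma Sol.coprime_WZ {X Y Z W : ℤ} (h : Sol X Y Z W) (hc : IsCoprime X Y) : IsCoprime W Z := by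
  rw [← IsCoprime.pow_left_iff (m := 2) (by norm_num)]
  have h1 : IsCoprime (Y ^ 2) Z := (h.coprime_ZY hc).symm.pow_left
  have e : W ^ 2 = Y ^ 2 + Z * Z := by linear_combination h.1 - h.2
  rw [e]
  exact h1.add_mul_left_left Z

lemma Sol.not_three_dvd {X Y Z W : ℤ} (h : Sol X Y Z W) (hc : IsCoprime X Y) : ¬ (3 : ℤ) ∣ X := by
  intro h3
  have e1 : ((X : ZMod 3)) ^ 2 + 80 * (Y : ZMod 3) ^ 2 = (Z : ZMod 3) ^ 2 := by
    exact_mod_cast congrArg (Int.cast : ℤ → ZMod 3) h.1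
  have hX0 : (X : ZMod 3) = 0 := (ZMod.intCast_zmod_eq_zero_iff_dvd X 3).2 h3
  rw [hX0] at e1
  have key : ∀ y z : ZMod 3, (0 : ZMod 3) ^ 2 + 80 * y ^ 2 = z ^ 2 → y = 0 := by decide
  have hY0 := key _ _ e1
  have h3Y : (3 : ℤ) ∣ Y := (ZMod.intCast_zmod_eq_zero_iff_dvd Y 3).1 hY0
  have := hc.isUnit_of_dvd' h3 h3Y
  norm_num [Int.isUnit_iff] at this

lemma Sol.not_five_dvd {X Y Z W : ℤ} (h : Sol X Y Z W) (hc : IsCoprime X Y) : ¬ (5 : ℤ) ∣ X := by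
  intro h5
  have p5 : Prime (5 : ℤ) := by norm_num
  have h5Z : (5 : ℤ) ∣ Z := by
    apply p5.dvd_of_dvd_pow (n := 2)
    rw [← h.1]
    exact dvd_add (dvd_pow h5 (by norm_num)) ⟨16 * Y ^ 2, by ring⟩
  obtain ⟨x, rfl⟩ := h5
  obtain ⟨z, rfl⟩ := h5Z
  have h1 := h.1
  have h2 : (5 : ℤ) ∣ 16 * Y ^ 2 := ⟨z ^ 2 - x ^ 2, by linarith⟩
  have h5Y : (5 : ℤ) ∣ Y := by
    rcases p5.dvd_or_dvd h2 with h3 | h3
    · norm_num at h3
    · exact p5.dvd_of_dvd_pow h3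
  have := hc.isUnit_of_dvd' ⟨x, rfl⟩ h5Y
  norm_num [Int.isUnit_iff] at this

lemma Sol.coprime_WX {X Y Z W : ℤ} (h : Sol X Y Z W) (hc : IsCoprime X Y) : IsCoprime W X := by
  rw [← IsCoprime.pow_left_iff (m := 2) (by norm_num)]
  have p3 : Prime (3 : ℤ) := by norm_num
  have h3 : IsCoprime (3 : ℤ) X := (p3.coprime_iff_not_dvd).2 (h.not_three_dvd hc)
  have h1 : IsCoprime (3 ^ 4 * Y ^ 2) X := (h3.pow_left).mul_left hc.symm.pow_left
  have e : W ^ 2 = 3 ^ 4 * Y ^ 2 + X * X := by linear_combination - h.2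
  rw [e]
  exact h1.add_mul_left_left X

lemma cop_add_sub {a b : ℤ} (h : IsCoprime a b) (hodd : Odd (a + b)) :
    IsCoprime (a + b) (a - b) := by
  have h2 : IsCoprime (a + b) 2 := by
    rw [isCoprime_comm, Int.isCoprime_iff_gcd_eq_one]
    obtain ⟨k, hk⟩ := hodd
    rw [hk]
    simp
  have h3 : IsCoprime (a + b) a := by
    have := h.symm.add_mul_left_left 1
    simpa [add_comm] using this
  have h4 : IsCoprime (a + b) (2 * a) := h2.mul_right h3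
  have e : a - b = 2 * a + (a + b) * (-1) := by ring
  rw [e]
  exact h4.add_mul_left_right (-1)

lemma cop_half {W Z A : ℤ} (h : IsCoprime W Z) (hA : W + Z = 2 * A) : IsCoprime A (W - A) := by
  obtain ⟨a, b, hab⟩ := h
  refine ⟨a + b, a - b, ?_⟩
  have hZ : Z = 2 * A - W := by linarith
  rw [hZ] at hab
  linear_combination hab

lemma Sol.bounds {X Y Z W : ℤ} (h : Sol X Y Z W) (hY : Y ≠ 0) (hZ : 0 < Z) (hW : 0 < W) :
    (-Z < X ∧ X < Z) ∧ (-W < X ∧ X < W) ∧ Z < W := by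
  have hY2 : 0 < Y ^ 2 := by positivity
  refine ⟨_root_.abs_lt.1 (abs_lt_of_sq_lt_sq ?_ hZ.le), _root_.abs_lt.1 (abs_lt_of_sq_lt_sq ?_ hW.le), ?_⟩
  · linarith [h.1]
  · linarith [h.2]
  · have : Z ^ 2 < W ^ 2 := by linarith [h.1, h.2]
    exact lt_of_pow_lt_pow_left₀ 2 hW.le this

lemma step_even {X Y Z W : ℤ} (h : Sol X Y Z W) (hc : IsCoprime X Y) (hY0 : Y ≠ 0)
    (hY : Even Y) (hZ : 0 < Z) (hW : 0 < W)
    (hprim : ∀ X' Z' W' : ℤ, Sol X' Y Z' W' → IsCoprime X' Y) : False := by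
  obtain ⟨⟨hX1, hX2⟩, ⟨hX3, hX4⟩, hZW⟩ := h.bounds hY0 hZ hW
  have h2Y : (2 : ℤ) ∣ Y := hY.two_dvd
  have hXodd : Odd X := by
    rw [← Int.not_even_iff_odd]
    intro hX
    have := hc.isUnit_of_dvd' hX.two_dvd h2Y
    norm_num [Int.isUnit_iff] at this
  have hZodd : Odd Z := by
    have : Odd (Z ^ 2) := by
      rw [← h.1]
      exact hXodd.pow.add_even ((hY.pow_of_ne_zero (by norm_num)).mul_left 80)
    exact (Int.odd_pow' (by norm_num)).1 this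
  have hWodd : Odd W := by
    have : Odd (W ^ 2) := by
      rw [← h.2]
      exact hXodd.pow.add_even ((hY.pow_of_ne_zero (by norm_num)).mul_left 81)
    exact (Int.odd_pow' (by norm_num)).1 this
  obtain ⟨y, rfl⟩ := h2Y
  obtain ⟨A, hA⟩ := (hWodd.add_odd hZodd).two_dvd
  obtain ⟨C, hC⟩ := (hWodd.add_odd hXodd).two_dvd
  obtain ⟨E, hE⟩ := (hZodd.add_odd hXodd).two_dvd
  have h1 := h.1
  have h2 := h.2
  -- A is a square
  obtain ⟨m, hm⟩ : ∃ m, A = m ^ 2 := by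
    refine sq_of_mul_sq (v := W - A) (y := y) ?_ (cop_half (h.coprime_WZ hc) hA) (by linarith)
    have hZ' : Z = 2 * A - W := by linarith
    rw [hZ'] at h1
    linarith
  have hCD : C * (W - C) = (9 * y) ^ 2 := by
    have hX' : X = 2 * C - W := by linarith
    rw [hX'] at h2
    linarith
  have hcCD : IsCoprime C (W - C) := cop_half (h.coprime_WX hc) hC
  obtain ⟨p, hp⟩ : ∃ p, C = p ^ 2 := sq_of_mul_sq hCD hcCD (by linarith)
  obtain ⟨q, hq⟩ : ∃ q, W - C = q ^ 2 :=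
    sq_of_mul_sq (by rw [mul_comm]; exact hCD) hcCD.symm (by linarith)
  have hcZX : IsCoprime Z X := by
    rw [← IsCoprime.pow_left_iff (m := 2) (by norm_num)]
    have p5 : Prime (5 : ℤ) := by norm_num
    have p2 : Prime (2 : ℤ) := by norm_num
    have c5 : IsCoprime (5 : ℤ) X := (p5.coprime_iff_not_dvd).2 (h.not_five_dvd hc)
    have c2 : IsCoprime (2 : ℤ) X := (p2.coprime_iff_not_dvd).2 (by
      intro hd
      exact (Int.not_even_iff_odd.2 hXodd) (even_iff_two_dvd.2 hd))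
    have c3 : IsCoprime (2 ^ 4 * 5 * (2 * y) ^ 2) X :=
      ((c2.pow_left).mul_left c5).mul_left hc.symm.pow_left
    have e : Z ^ 2 = 2 ^ 4 * 5 * (2 * y) ^ 2 + X * X := by linear_combination - h1
    rw [e]
    exact c3.add_mul_left_left X
  have hEF : E * (Z - E) = 5 * (4 * y) ^ 2 := by
    have hX' : X = 2 * E - Z := by linarith
    rw [hX'] at h1
    linarith
  have hfin : ∀ X' Z' W' : ℤ, Sol (2 * X') (2 * y) Z' W' → False := by
    intro X' Z' W' hs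
    have := (hprim _ _ _ hs).isUnit_of_dvd' ⟨X', rfl⟩ ⟨y, rfl⟩
    norm_num [Int.isUnit_iff] at this
  rcases five_case hEF (cop_half hcZX hE) (by linarith) (by linarith) with ⟨a, ha⟩ | ⟨b, hb⟩
  · refine hfin (a * p) (2 * a * m) (2 * p * m) (h.next ?_ ?_ ?_)
    · rw [hE, hC, ha, hp]; ring
    · rw [hE, hA, ha, hm]; ring
    · rw [hC, hA, hp, hm]; ring
  · refine hfin (b * q) (2 * b * m) (2 * q * m) (h.neg_left.next ?_ ?_ ?_)
    · have e1 : Z + -X = 2 * (Z - E) := by linarith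
      have e2 : W + -X = 2 * (W - C) := by linarith
      rw [e1, e2, hb, hq]; ring
    · have e1 : Z + -X = 2 * (Z - E) := by linarith
      rw [e1, hA, hb, hm]; ring
    · have e2 : W + -X = 2 * (W - C) := by linarith
      rw [e2, hA, hq, hm]; ring

/-- final contradiction in the odd case -/
lemma odd_final {X Y Z W a F p m : ℤ} (h : Sol X Y Z W) (hY0 : Y ≠ 0)
    (hE : Z + X = 4 * a ^ 2) (hF : Z - X = 4 * F) (hEF : a ^ 2 * F = 5 * Y ^ 2)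
    (hC : W + X = p ^ 2) (hA : W + Z = m ^ 2)
    (hprim : ∀ X' Z' W' : ℤ, Sol X' Y Z' W' → IsCoprime X' Y) : False := by
  have hs : Sol (2 * a * p) Y (2 * a * m) (p * m) := by
    refine h.next ?_ ?_ ?_
    · rw [hE, hC]; ring
    · rw [hE, hA]; ring
    · rw [hC, hA]; ring
  have hc1 : IsCoprime a Y := by
    have := hprim _ _ _ hs
    exact (this.of_mul_left_left).of_mul_left_right
  have hdvd : a ^ 2 ∣ 5 := by
    have h1 : a ^ 2 ∣ 5 * Y ^ 2 := ⟨F, hEF.symm⟩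
    exact (IsCoprime.pow hc1).dvd_of_dvd_mul_right h1
  have ha1 : a ^ 2 = 1 := by
    have hle : a ^ 2 ≤ 5 := Int.le_of_dvd (by norm_num) hdvd
    have hlb : -2 ≤ a := by nlinarith
    have hub : a ≤ 2 := by nlinarith
    interval_cases a <;> simp_all
  rw [ha1] at hE hEF
  have ht : 1 ≤ Y ^ 2 := by
    have : 0 < Y ^ 2 := by positivity
    linarith
  have h2 := h.2
  generalize Y ^ 2 = t at *
  have hs0 : 0 ≤ p ^ 2 := sq_nonneg p
  generalize p ^ 2 = s at *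
  have hX : X = 2 - 10 * t := by linarith
  have hW : W = s - X := by linarith
  rw [hW, hX] at h2
  have h3 : s ^ 2 - 2 * s * (2 - 10 * t) = 81 * t := by linear_combination -h2
  by_cases hs5 : 5 ≤ s
  · nlinarith
  · have hs5' : s < 5 := not_le.1 hs5
    clear h2 hC hW h hs hprim
    interval_cases s <;> omega

lemma mod4_aux : ∀ x y w : ZMod 4, x ^ 2 + 81 * y ^ 2 = w ^ 2 → 2 * y = 2 → 2 * x = 0 := by decide

lemma mod8_aux : ∀ x y z : ZMod 8, x ^ 2 + 20 * y ^ 2 = z ^ 2 → 4 * y = 4 → 4 * x = 0 ∧ 4 * z = 0 := by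
  decide

lemma step_odd {X Y Z W : ℤ} (h : Sol X Y Z W) (hc : IsCoprime X Y) (hY0 : Y ≠ 0)
    (hY : Odd Y) (hZ : 0 < Z) (hW : 0 < W)
    (hprim : ∀ X' Z' W' : ℤ, Sol X' Y Z' W' → IsCoprime X' Y) : False := by
  obtain ⟨⟨hX1, hX2⟩, ⟨hX3, hX4⟩, hZW⟩ := h.bounds hY0 hZ hW
  have h1 := h.1
  have h2 := h.2
  -- X is even
  have hXe : (2 : ℤ) ∣ X := by
    have e1 : ((X : ZMod 4)) ^ 2 + 81 * (Y : ZMod 4) ^ 2 = (W : ZMod 4) ^ 2 := by
      exact_mod_cast congrArg (Int.cast : ℤ → ZMod 4) h2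
    have e2 : 2 * (Y : ZMod 4) = 2 := by
      obtain ⟨k, hk⟩ := hY
      have : ((2 * Y - 2 : ℤ) : ZMod 4) = 0 :=
        (ZMod.intCast_zmod_eq_zero_iff_dvd _ 4).2 ⟨k, by rw [hk]; push_cast; ring⟩
      push_cast at this
      linear_combination this
    have e3 := mod4_aux _ _ _ e1 e2
    have e4 : ((2 * X : ℤ) : ZMod 4) = 0 := by push_cast; exact e3
    have e5 : ((4 : ℕ) : ℤ) ∣ 2 * X := (ZMod.intCast_zmod_eq_zero_iff_dvd _ 4).1 e4
    obtain ⟨k, hk⟩ := e5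
    exact ⟨k, by push_cast at hk; linarith⟩
  obtain ⟨X₁, rfl⟩ := hXe
  have hZe : (2 : ℤ) ∣ Z := by
    have p2 : Prime (2 : ℤ) := by norm_num
    apply p2.dvd_of_dvd_pow (n := 2)
    rw [← h1]
    exact ⟨2 * X₁ ^ 2 + 40 * Y ^ 2, by ring⟩
  obtain ⟨Z₁, rfl⟩ := hZe
  have h3 : X₁ ^ 2 + 20 * Y ^ 2 = Z₁ ^ 2 := by linarith
  obtain ⟨hX₁, hZ₁⟩ : (2 : ℤ) ∣ X₁ ∧ (2 : ℤ) ∣ Z₁ := by
    have e1 : ((X₁ : ZMod 8)) ^ 2 + 20 * (Y : ZMod 8) ^ 2 = (Z₁ : ZMod 8) ^ 2 := by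
      exact_mod_cast congrArg (Int.cast : ℤ → ZMod 8) h3
    have e2 : 4 * (Y : ZMod 8) = 4 := by
      obtain ⟨k, hk⟩ := hY
      have : ((4 * Y - 4 : ℤ) : ZMod 8) = 0 :=
        (ZMod.intCast_zmod_eq_zero_iff_dvd _ 8).2 ⟨k, by rw [hk]; push_cast; ring⟩
      push_cast at this
      linear_combination this
    obtain ⟨e3, e3'⟩ := mod8_aux _ _ _ e1 e2
    constructor
    · have e4 : ((4 * X₁ : ℤ) : ZMod 8) = 0 := by push_cast; exact e3
      obtain ⟨k, hk⟩ := (ZMod.intCast_zmod_eq_zero_iff_dvd _ 8).1 e4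
      exact ⟨k, by push_cast at hk; linarith⟩
    · have e4 : ((4 * Z₁ : ℤ) : ZMod 8) = 0 := by push_cast; exact e3'
      obtain ⟨k, hk⟩ := (ZMod.intCast_zmod_eq_zero_iff_dvd _ 8).1 e4
      exact ⟨k, by push_cast at hk; linarith⟩
  obtain ⟨X₂, rfl⟩ := hX₁
  obtain ⟨Z₂, rfl⟩ := hZ₁
  have h4 : X₂ ^ 2 + 5 * Y ^ 2 = Z₂ ^ 2 := by linarith
  have hWodd : Odd W := by
    have : Odd (W ^ 2) := by
      rw [← h2]
      refine Even.add_odd ?_ ?_
      · exact ⟨2 * (2 * X₂) ^ 2, by ring⟩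
      · exact (by decide : Odd (81 : ℤ)).mul hY.pow
    exact (Int.odd_pow' (by norm_num)).1 this
  -- W + Z is a square
  obtain ⟨m, hm⟩ : ∃ m, W + 2 * (2 * Z₂) = m ^ 2 := by
    refine sq_of_mul_sq (v := W - 2 * (2 * Z₂)) (y := Y) (by linarith)
      (cop_add_sub (h.coprime_WZ hc) ?_) (by linarith)
    exact hWodd.add_even ⟨2 * Z₂, by ring⟩
  have hCD : (W + 2 * (2 * X₂)) * (W - 2 * (2 * X₂)) = (9 * Y) ^ 2 := by linarith
  have hcCD : IsCoprime (W + 2 * (2 * X₂)) (W - 2 * (2 * X₂)) :=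
    cop_add_sub (h.coprime_WX hc) (hWodd.add_even ⟨2 * X₂, by ring⟩)
  obtain ⟨p, hp⟩ := sq_of_mul_sq hCD hcCD (by linarith)
  obtain ⟨q, hq⟩ := sq_of_mul_sq (by rw [mul_comm]; exact hCD) hcCD.symm (by linarith)
  have hEF : (Z₂ + X₂) * (Z₂ - X₂) = 5 * Y ^ 2 := by linarith
  have hcZX : IsCoprime Z₂ X₂ := by
    rw [← IsCoprime.pow_left_iff (m := 2) (by norm_num)]
    have p5 : Prime (5 : ℤ) := by norm_num
    have c5 : IsCoprime (5 : ℤ) X₂ := (p5.coprime_iff_not_dvd).2 (by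
      intro hd
      exact h.not_five_dvd hc (Dvd.dvd.mul_left (Dvd.dvd.mul_left hd 2) 2))
    have cY : IsCoprime Y X₂ := (hc.of_mul_left_right.of_mul_left_right).symm
    have c3 : IsCoprime (5 * Y ^ 2) X₂ := c5.mul_left cY.pow_left
    have e : Z₂ ^ 2 = 5 * Y ^ 2 + X₂ * X₂ := by linear_combination - h4
    rw [e]
    exact c3.add_mul_left_left X₂
  have hEodd : Odd (Z₂ + X₂) := by
    have : Odd ((Z₂ + X₂) * (Z₂ - X₂)) := by
      rw [hEF]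
      exact (by decide : Odd (5 : ℤ)).mul hY.pow
    exact (Int.odd_mul.1 this).1
  rcases five_case hEF (cop_add_sub hcZX hEodd) (by linarith) (by linarith) with ⟨a, ha⟩ | ⟨b, hb⟩
  · exact odd_final (a := a) (F := Z₂ - X₂) (p := p) (m := m) h hY0 (by linarith) (by ring)
      (by rw [← ha]; exact hEF) hp hm hprim
  · exact odd_final (a := b) (F := Z₂ + X₂) (p := q) (m := m) h.neg_left hY0 (by linarith) (by ring)
      (by rw [← hb, mul_comm]; exact hEF) (by rw [← hq]; ring) hm hprim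

theorem key_descent_aux : ∀ n : ℕ, ∀ X Y Z W : ℤ, Y.natAbs = n → Y ≠ 0 → ¬ Sol X Y Z W := by
  intro n
  induction n using Nat.strong_induction_on with
  | _ n ih =>
    intro X Y Z W hn hY0 h
    have hmin : ∀ X' Y' Z' W' : ℤ, Y' ≠ 0 → Y'.natAbs < Y.natAbs → ¬ Sol X' Y' Z' W' := by
      intro X' Y' Z' W' hY' hlt
      exact ih _ (hn ▸ hlt) X' Y' Z' W' rfl hY'
    have hprim : ∀ X' Z' W' : ℤ, Sol X' Y Z' W' → IsCoprime X' Y :=
      fun X' Z' W' hs => hs.coprime_of_minimal hY0 hmin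
    have hY2 : 0 < Y ^ 2 := by positivity
    have h' : Sol X Y |Z| |W| := ⟨by rw [sq_abs]; exact h.1, by rw [sq_abs]; exact h.2⟩
    have hZ : 0 < |Z| := by
      rw [abs_pos]
      rintro rfl
      have := h.1
      nlinarith [sq_nonneg X]
    have hW : 0 < |W| := by
      rw [abs_pos]
      rintro rfl
      have := h.2
      nlinarith [sq_nonneg X]
    rcases Int.even_or_odd Y with hY | hY
    · exact step_even h' (hprim _ _ _ h') hY0 hY hZ hW hprim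
    · exact step_odd h' (hprim _ _ _ h') hY0 hY hZ hW hprim

/-- **Key descent**: the concordant forms `X² + 80 Y²`, `X² + 81 Y²` are not simultaneously squares. -/
theorem key_descent (X Y Z W : ℤ) (hY : Y ≠ 0) (h1 : X ^ 2 + 80 * Y ^ 2 = Z ^ 2)
    (h2 : X ^ 2 + 81 * Y ^ 2 = W ^ 2) : False :=
  key_descent_aux _ X Y Z W rfl hY ⟨h1, h2⟩

end Fermat.Agent.S51
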